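import Fermat.Agent.H21.Es1C.Interfaces
import Fermat.Agent.H31.MaxPrinciple

/-!
# P-DS / ES1-C-PER-INJ (helper17): the period map of `S₂(Γ₁(M))` is injective

* `const_of_re_invariant_gen` : the maximum principle of `Fermat.Agent.H31.const_of_re_invariant`
  for an arbitrary subgroup `Γ ⊇ Γ(N)` of `SL(2, ℤ)`;
* `periodInjective1 : ExistsPrimitive1Statement → PeriodInjective1Statement`.
-/

set_option autoImplicit false

noncomputable section

namespace Fermat.Agent.H17.Es1C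

open UpperHalfPlane CongruenceSubgroup Filter Topology Function Metric
open ModularCurve ModularCurve.Period
open scoped MatrixGroups Manifold Modular Real

open Fermat.Agent.H31 Fermat.Agent.H21.Es1C

/-- `δ T^N δ⁻¹ ∈ Γ` for every `δ ∈ SL(2, ℤ)` when `Γ ⊇ Γ(N)`. -/
theorem conj_T_pow_mem_of_le (N : ℕ) {Γ : Subgroup SL(2, ℤ)} (hΓ : Gamma N ≤ Γ)
    (δ : SL(2, ℤ)) : δ * ModularGroup.T ^ (N : ℤ) * δ⁻¹ ∈ Γ := by
  have h1 : ModularGroup.T ^ (N : ℤ) ∈ Gamma N := by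
    simpa using ModularGroup_T_pow_mem_Gamma (N : ℤ) (N : ℤ) dvd_rfl
  exact hΓ ((Gamma_normal N).conj_mem _ h1 δ)

/-- Periodicity at the cusp `δ∞`. -/
theorem translate_periodic_gen (N : ℕ) {Γ : Subgroup SL(2, ℤ)} (hΓ : Gamma N ≤ Γ) {H : ℍ → ℂ}
    (hinv : ∀ γ ∈ Γ, ∃ c : ℂ, ∀ z : ℍ, H (γ • z) - H z = c)
    (δ : SL(2, ℤ)) {L : ℂ} (hL : Tendsto (fun w : ℍ => H (δ • w)) atImInfty (𝓝 L))
    (w : ℍ) : H (δ • ((N : ℝ) +ᵥ w)) = H (δ • w) := by
  obtain ⟨c, hc⟩ := hinv _ (conj_T_pow_mem_of_le N hΓ δ)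
  have key : ∀ w : ℍ, H (δ • ((N : ℝ) +ᵥ w)) - H (δ • w) = c := by
    intro w
    have h1 := hc (δ • w)
    have h2 : (δ * ModularGroup.T ^ (N : ℤ) * δ⁻¹) • (δ • w) = δ • ((N : ℝ) +ᵥ w) := by
      rw [mul_smul, mul_smul, inv_smul_smul, modular_T_zpow_smul]
      simp
    rw [h2] at h1
    exact h1
  have hlim1 : Tendsto (fun w : ℍ => H (δ • ((N : ℝ) +ᵥ w)) - H (δ • w)) atImInfty
      (𝓝 (L - L)) :=
    (hL.comp (tendsto_vadd_atImInfty (N : ℝ))).sub hL
  have hlim2 : Tendsto (fun w : ℍ => H (δ • ((N : ℝ) +ᵥ w)) - H (δ • w)) atImInfty (𝓝 c) := by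
    have : (fun w : ℍ => H (δ • ((N : ℝ) +ᵥ w)) - H (δ • w)) = fun _ => c := funext key
    rw [this]
    exact tendsto_const_nhds
  have hc0 : c = L - L := tendsto_nhds_unique hlim2 hlim1
  have := key w
  rw [hc0, sub_self, sub_eq_zero] at this
  exact this

/-- The translate of `H` by `δ`, exponentiated, descends to a holomorphic function on the unit
disc. -/
theorem exists_cusp_function_gen (N : ℕ) [NeZero N] {Γ : Subgroup SL(2, ℤ)}
    (hΓ : Gamma N ≤ Γ) {H : ℍ → ℂ} (hH : MDiff H)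
    (hinv : ∀ γ ∈ Γ, ∃ c : ℂ, ∀ z : ℍ, H (γ • z) - H z = c)
    (δ : SL(2, ℤ)) {L : ℂ} (hL : Tendsto (fun w : ℍ => H (δ • w)) atImInfty (𝓝 L)) :
    ∃ G : ℂ → ℂ, DifferentiableOn ℂ G (Metric.ball 0 1) ∧
      ∀ w : ℍ, G (Function.Periodic.qParam (N : ℝ) (w : ℂ)) = Complex.exp (H (δ • w)) := by
  have hN : (0 : ℝ) < (N : ℝ) := by
    have := NeZero.pos N
    exact_mod_cast this
  set f : ℍ → ℂ := fun w => Complex.exp (H (δ • w)) with hf
  have hper0 := translate_periodic_gen N hΓ hinv δ hL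
  have hfper : Periodic (f ∘ ofComplex) (N : ℝ) := by
    intro z
    by_cases hz : 0 < z.im
    · have hz' : 0 < (z + (N : ℝ)).im := by simpa using hz
      simp only [comp_apply, ofComplex_apply_of_im_pos hz', ofComplex_apply_of_im_pos hz, hf]
      have : (⟨z + (N : ℝ), hz'⟩ : ℍ) = (N : ℝ) +ᵥ (⟨z, hz⟩ : ℍ) := by
        ext
        simp [add_comm]
      rw [this, hper0]
    · have hz0 : z.im ≤ 0 := not_lt.mp hz
      have hz' : (z + (N : ℝ)).im ≤ 0 := by simpa using hz0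
      rw [comp_apply, comp_apply, ofComplex_apply_of_im_nonpos hz',
        ofComplex_apply_of_im_nonpos hz0]
  have hsmul : MDiff (fun w : ℍ => H (δ • w)) :=
    hH.comp (mdifferentiable_smul (g := Matrix.SpecialLinearGroup.mapGL ℝ δ) (by simp))
  have hfhol : MDiff f := by
    rw [UpperHalfPlane.mdifferentiable_iff] at hsmul ⊢
    exact Complex.differentiable_exp.comp_differentiableOn hsmul
  have hfbdd : IsBoundedAtImInfty f := by
    have : Tendsto f atImInfty (𝓝 (Complex.exp L)) :=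
      (Complex.continuous_exp.tendsto L).comp hL
    exact this.isBigO_one ℝ
  refine ⟨UpperHalfPlane.cuspFunction (N : ℝ) f,
    differentiableOn_cuspFunction_ball hN hfper hfhol hfbdd, fun w => ?_⟩
  exact UpperHalfPlane.eq_cuspFunction w hN.ne' hfper

/-- **Maximum principle** for a subgroup `Γ ⊇ Γ(N)`: a holomorphic function on `ℍ` which
changes by purely imaginary constants under `Γ` and has a limit at every cusp is constant. -/
theorem const_of_re_invariant_gen (N : ℕ) [NeZero N] {Γ : Subgroup SL(2, ℤ)}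
    (hΓ : Gamma N ≤ Γ) {H : ℍ → ℂ} (hH : MDiff H)
    (hinv : ∀ γ ∈ Γ, ∃ c : ℂ, c.re = 0 ∧ ∀ z : ℍ, H (γ • z) - H z = c)
    (hlim : ∀ δ : SL(2, ℤ), ∃ L : ℂ, Tendsto (fun w : ℍ => H (δ • w)) atImInfty (𝓝 L)) :
    ∃ c : ℂ, ∀ z : ℍ, H z = c := by
  have hN : (0 : ℝ) < (N : ℝ) := by
    have := NeZero.pos N
    exact_mod_cast this
  have hG : ∀ δ : SL(2, ℤ), ∃ G : ℂ → ℂ, DifferentiableOn ℂ G (Metric.ball 0 1) ∧
      ∀ w : ℍ, G (Function.Periodic.qParam (N : ℝ) (w : ℂ)) = Complex.exp (H (δ • w)) := by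
    intro δ
    obtain ⟨L, hL⟩ := hlim δ
    exact exists_cusp_function_gen N hΓ hH (fun γ hγ => (hinv γ hγ).imp fun c hc => hc.2) δ hL
  choose G hGdiff hGeq using hG
  have hfi : Γ.FiniteIndex := Subgroup.finiteIndex_of_le hΓ
  have : Finite (SL(2, ℤ) ⧸ Γ) := Subgroup.finite_quotient_of_finiteIndex
  let rep : SL(2, ℤ) ⧸ Γ → SL(2, ℤ) := fun q => (Quotient.out q)⁻¹
  set ρ : ℝ := Real.exp (-π / N) with hρ
  have hρ0 : 0 ≤ ρ := (Real.exp_pos _).le
  have hρ1 : ρ < 1 := by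
    rw [hρ, Real.exp_lt_one_iff]
    exact div_neg_of_neg_of_pos (neg_lt_zero.mpr Real.pi_pos) hN
  have hmax : ∀ q : SL(2, ℤ) ⧸ Γ, ∃ x ∈ closedBall (0 : ℂ) ρ,
      IsMaxOn (fun y => ‖G (rep q) y‖) (closedBall (0 : ℂ) ρ) x := fun q =>
    (isCompact_closedBall (0 : ℂ) ρ).exists_isMaxOn (nonempty_closedBall.mpr hρ0)
      ((hGdiff (rep q)).continuousOn.mono (closedBall_subset_ball hρ1)).norm
  choose x hx hxmax using hmax
  obtain ⟨q₀, hq₀⟩ := Finite.exists_max (fun q => ‖G (rep q) (x q)‖)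
  -- the global bound
  have claim : ∀ z : ℍ, ‖Complex.exp (H z)‖ ≤ ‖G (rep q₀) (x q₀)‖ := by
    intro z
    obtain ⟨g, hg⟩ := ModularGroup.exists_smul_mem_fd z
    obtain ⟨γ, hγ⟩ := QuotientGroup.mk_out_eq_mul Γ g
    set q : SL(2, ℤ) ⧸ Γ := (QuotientGroup.mk g : SL(2, ℤ) ⧸ Γ) with hq
    have hrep : rep q = (γ : SL(2, ℤ))⁻¹ * g⁻¹ := by
      show (Quotient.out q)⁻¹ = _
      rw [hγ, mul_inv_rev]
    obtain ⟨c, hc0, hc⟩ := hinv ((γ : SL(2, ℤ))⁻¹) (inv_mem γ.2)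
    have h1 : rep q • (g • z) = (γ : SL(2, ℤ))⁻¹ • z := by
      rw [hrep, mul_smul, inv_smul_smul]
    have h2 : (H (rep q • (g • z))).re = (H z).re := by
      have := hc z
      rw [← h1] at this
      have h3 : H (rep q • (g • z)) = H z + c := by rw [← this]; ring
      rw [h3, Complex.add_re, hc0, add_zero]
    have h4 : ‖Complex.exp (H z)‖ =
        ‖G (rep q) (Function.Periodic.qParam (N : ℝ) ((g • z : ℍ) : ℂ))‖ := by
      rw [hGeq, Complex.norm_exp, Complex.norm_exp, h2]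
    rw [h4]
    refine le_trans (hxmax q ?_) (hq₀ q)
    rw [mem_closedBall_zero_iff]
    exact norm_qParam_le_of_mem_fd N hg
  -- the maximum is attained in the open unit disc
  have hball : ∀ y ∈ ball (0 : ℂ) 1, ‖G (rep q₀) y‖ ≤ ‖G (rep q₀) (x q₀)‖ := by
    intro y hy
    rcases eq_or_ne y 0 with rfl | hy0
    · exact hxmax q₀ (mem_closedBall_self hρ0)
    · have him := Function.Periodic.im_invQParam_pos_of_norm_lt_one hN
        (mem_ball_zero_iff.mp hy) hy0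
      have hy' : Function.Periodic.qParam (N : ℝ)
          (((⟨Function.Periodic.invQParam (N : ℝ) y, him⟩ : ℍ)) : ℂ) = y :=
        Function.Periodic.qParam_right_inv hN.ne' hy0
      rw [← hy', hGeq]
      exact claim _
  have hconst := Complex.eqOn_of_isPreconnected_of_isMaxOn_norm
    (convex_ball (0 : ℂ) 1).isPreconnected isOpen_ball (hGdiff (rep q₀))
    (closedBall_subset_ball hρ1 (hx q₀)) (fun y hy => hball y hy)
  have hexp : ∀ z : ℍ, Complex.exp (H z) = G (rep q₀) (x q₀) := by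
    intro z
    have h1 := hGeq (rep q₀) ((rep q₀)⁻¹ • z)
    rw [smul_inv_smul] at h1
    rw [← h1]
    refine hconst ?_
    rw [mem_ball_zero_iff]
    exact Function.Periodic.norm_qParam_lt_one hN (UpperHalfPlane.im_pos _)
  refine ⟨H UpperHalfPlane.I, fun z => ?_⟩
  have := eq_of_exp_comp_eqOn_const isOpen_upperHalfPlaneSet isPreconnected_uhpSet
    (UpperHalfPlane.mdifferentiable_iff.mp hH) (c := G (rep q₀) (x q₀))
    (fun y _ => hexp (ofComplex y)) z.im_pos UpperHalfPlane.I.im_pos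
  rw [comp_apply, comp_apply, ofComplex_apply, ofComplex_apply] at this
  exact this

/-- `Γ(M) ≤ ⟨Γ₁(M), -1⟩`. -/
theorem gamma_le_G1 (M : ℕ) : Gamma M ≤ G1 M := by
  intro γ hγ
  have h1 : γ ∈ Gamma1 M := by
    rw [Gamma_mem] at hγ
    rw [Gamma1_mem]
    exact ⟨hγ.1, hγ.2.2.2, hγ.2.2.1⟩
  exact (le_sup_left : Gamma1 M ≤ Gamma1 M ⊔ Subgroup.zpowers (-1 : SL(2, ℤ))) h1

/-- **ES1-C-PER-INJ.**  The period map of `S₂(Γ₁(M))` is injective. -/
theorem periodInjective1 (hA : ExistsPrimitive1Statement) : PeriodInjective1Statement := by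
  intro M _ f hf
  have hex := hA M f
  rw [periodMap1, dif_pos hex] at hf
  have hF : HasEqPrim1 M f hex.choose := hex.choose_spec
  set F := hex.choose with hFdef
  have hinv : ∀ γ ∈ G1 M, ∃ c : ℂ, c.re = 0 ∧ ∀ z : ℍ, F (γ • z) - F z = c := by
    intro γ hγ
    refine ⟨0, rfl, fun z => ?_⟩
    have h1 := hF.2.2.1.sub_eq_period ⟨γ, hγ⟩ z
    have h0 := congrArg (fun φ : Additive ↥(G1 M) →+ ℂ => φ (Additive.ofMul ⟨γ, hγ⟩)) hf
    simp only [IsEquivariantPrimitive.periodHom_apply, AddMonoidHom.zero_apply] at h0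
    rw [← h0]
    exact h1
  have hmd : MDiff F :=
    UpperHalfPlane.mdifferentiable_iff.mpr fun z hz =>
      (hF.1 ⟨z, hz⟩).differentiableAt.differentiableWithinAt
  obtain ⟨c, hc⟩ := const_of_re_invariant_gen M (gamma_le_G1 M) hmd hinv hF.2.2.2
  ext τ
  have hd := hF.1 τ
  have hd0 : HasDerivAt (F ∘ ofComplex) 0 τ := by
    have : F ∘ ofComplex = fun _ => c := funext fun y => hc _
    rw [this]
    exact hasDerivAt_const _ _
  exact hd.unique hd0

end Fermat.Agent.H17.Es1C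

end
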